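/-
helper47: the height (degree) of a rational function `max (deg num) (deg denom)` is
multiplicative under composition.  (Generic algebra; intended for the height argument of the
Hasse relation: `deg (ψ₁ ∘ ψ₂) = deg ψ₁ * deg ψ₂`.)
-/
import Mathlib

set_option autoImplicit false

namespace Fermat.Agent.H47

open IntermediateField Polynomial

section RatHeight

variable {K : Type*} [Field K]

/-- the height of a rational function: `max (deg num) (deg denom)`. -/
noncomputable def ratHeight (f : RatFunc K) : ℕ := max f.num.natDegree f.denom.natDegree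

theorem ratHeight_eq_finrank (f : RatFunc K) :
    ratHeight f = Module.finrank K⟮f⟯ (RatFunc K) :=
  (RatFunc.finrank_eq_max_natDegree f).symm

@[simp] theorem ratHeight_C (c : K) : ratHeight (RatFunc.C c) = 0 := by
  simp [ratHeight]

@[simp] theorem ratHeight_zero : ratHeight (0 : RatFunc K) = 0 := by
  simp [ratHeight]

@[simp] theorem ratHeight_X : ratHeight (RatFunc.X : RatFunc K) = 1 := by
  simp [ratHeight]

theorem ratHeight_eq_zero_iff (f : RatFunc K) : ratHeight f = 0 ↔ ∃ c, f = RatFunc.C c := by
  unfold ratHeight
  rw [Nat.max_eq_zero_iff, ← RatFunc.eq_C_iff]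

/-- substitution `X ↦ r` as a `K`-algebra endomorphism of `K(X)`, for non-constant `r`. -/
noncomputable def ratSubst (r : RatFunc K) (hr : ¬ ∃ c, r = RatFunc.C c) :
    RatFunc K →ₐ[K] RatFunc K :=
  (IntermediateField.val K⟮r⟯).comp
    (RatFunc.algEquivOfTranscendental r (RatFunc.transcendental_of_ne_C r hr)).toAlgHom

variable (r : RatFunc K) (hr : ¬ ∃ c, r = RatFunc.C c)

@[simp] theorem ratSubst_X : ratSubst r hr RatFunc.X = r := by
  simp [ratSubst, RatFunc.algEquivOfTranscendental_X]

theorem ratSubst_apply (g : RatFunc K) :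
    ratSubst r hr g = aeval r g.num / aeval r g.denom := by
  simp [ratSubst, RatFunc.algEquivOfTranscendental_apply]

theorem ratSubst_algebraMap (g : K[X]) :
    ratSubst r hr (algebraMap K[X] (RatFunc K) g) = aeval r g := by
  simp [ratSubst, RatFunc.algEquivOfTranscendental_algebraMap]

/-- **the height is multiplicative under composition**, for an arbitrary `K`-algebra
endomorphism `φ` of `K(X)` (substitution `X ↦ φ X`). -/
theorem ratHeight_algHom (φ : RatFunc K →ₐ[K] RatFunc K) (g : RatFunc K) :
    ratHeight (φ g) = ratHeight g * ratHeight (φ RatFunc.X) := by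
  have hA : K⟮φ g⟯ = (K⟮g⟯).map φ := by
    rw [IntermediateField.adjoin_map, Set.image_singleton]
  have hB : K⟮φ RatFunc.X⟯ = (⊤ : IntermediateField K (RatFunc K)).map φ := by
    rw [← RatFunc.adjoin_X, IntermediateField.adjoin_map, Set.image_singleton]
  have hle : K⟮φ g⟯ ≤ K⟮φ RatFunc.X⟯ := by
    rw [hA, hB]
    exact IntermediateField.map_mono φ le_top
  have h1 := IntermediateField.relfinrank_mul_finrank_top hle
  have h2 : IntermediateField.relfinrank K⟮φ g⟯ K⟮φ RatFunc.X⟯
      = Module.finrank K⟮g⟯ (RatFunc K) := by
    rw [hA, hB, IntermediateField.relfinrank_map_map, IntermediateField.relfinrank_top_right]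
  rw [ratHeight_eq_finrank, ratHeight_eq_finrank, ratHeight_eq_finrank, ← h1, h2]

/-- the max-degree form of `ratHeight_algHom`. -/
theorem max_natDegree_algHom (φ : RatFunc K →ₐ[K] RatFunc K) (g : RatFunc K) :
    max (φ g).num.natDegree (φ g).denom.natDegree
      = max g.num.natDegree g.denom.natDegree
        * max (φ RatFunc.X).num.natDegree (φ RatFunc.X).denom.natDegree :=
  ratHeight_algHom φ g

/-- **the height is multiplicative under composition.** -/
theorem ratHeight_ratSubst (g : RatFunc K) :
    ratHeight (ratSubst r hr g) = ratHeight g * ratHeight r := by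
  have := ratHeight_algHom (ratSubst r hr) g
  rwa [ratSubst_X] at this

end RatHeight

end Fermat.Agent.H47
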