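/-
helper47, P-S14 / C3 (Thaine relation), piece A: the local congruence.

`R` Dedekind domain, `L` nonzero prime, `Pi ∈ L \ L²`, `τ` a ring automorphism acting trivially
modulo `L`, `τ Pi = c * Pi` with `c ≡ s (mod L)`.  If `τ β = ε * β` (`β ≠ 0`) then
`ε ≡ s ^ r (mod L)` where `r` is the exact power of `L` dividing `β`.
-/
import Mathlib

set_option autoImplicit false

namespace Fermat.Agent.H47

open Ideal

section LocalCongruence

variable {R : Type*} [CommRing R] [IsDedekindDomain R]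

/-- a nonzero element lies in `L ^ r \ L ^ (r+1)` for a unique `r`. -/
theorem exists_mem_pow_notMem_pow_succ_of_ne_zero (L : Ideal R) [hL : L.IsPrime] (hL0 : L ≠ ⊥)
    {β : R} (hβ : β ≠ 0) : ∃ r : ℕ, β ∈ L ^ r ∧ β ∉ L ^ (r + 1) := by
  classical
  have hfin : ∃ n : ℕ, β ∉ L ^ n := by
    by_contra hcon
    push Not at hcon
    have hinf : (⨅ n : ℕ, L ^ n) = ⊥ :=
      Ideal.iInf_pow_eq_bot_of_isDomain L hL.ne_top
    have : β ∈ (⨅ n : ℕ, L ^ n) := by
      simp only [Ideal.mem_iInf]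
      exact hcon
    rw [hinf] at this
    exact hβ (by simpa using this)
  have h0 : β ∈ L ^ 0 := by simp
  obtain ⟨n, hn⟩ := hfin
  -- the least `n` with `β ∉ L ^ n` is a successor
  let m := Nat.find (⟨n, hn⟩ : ∃ n : ℕ, β ∉ L ^ n)
  have hm : β ∉ L ^ m := Nat.find_spec (⟨n, hn⟩ : ∃ n : ℕ, β ∉ L ^ n)
  have hm0 : m ≠ 0 := by
    intro h
    rw [h] at hm
    exact hm h0
  obtain ⟨r, hr⟩ := Nat.exists_eq_succ_of_ne_zero hm0
  refine ⟨r, ?_, ?_⟩
  · by_contra hcon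
    have := Nat.find_min' (⟨n, hn⟩ : ∃ n : ℕ, β ∉ L ^ n) hcon
    change m ≤ r at this
    omega
  · rw [← Nat.succ_eq_add_one, ← hr]
    exact hm

/-- powers of a uniformiser have exact valuation. -/
theorem pow_notMem_pow_succ_of_uniformiser (L : Ideal R) [hL : L.IsPrime] (hL0 : L ≠ ⊥)
    {Pi : R} (hPi2 : Pi ∉ L ^ 2) (r : ℕ) : Pi ^ r ∉ L ^ (r + 1) := by
  induction r with
  | zero =>
    simp only [pow_zero, zero_add, pow_one]
    intro h
    exact hL.ne_top ((Ideal.eq_top_iff_one L).2 h)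
  | succ r ih =>
    intro h
    -- `Pi ^ r * Pi ∈ L ^ (r+2)`, and `L ^ (r+1) ∣ Pi^r` would follow
    have hprime := Ideal.prime_of_isPrime hL0 hL
    have h1 : L ^ (r + 1 + 1) ∣ Ideal.span {Pi ^ r} * Ideal.span {Pi} := by
      rw [Ideal.span_singleton_mul_span_singleton, Ideal.dvd_span_singleton, ← pow_succ]
      exact h
    -- use multiplicity additivity
    have hmul := emultiplicity_mul hprime (a := Ideal.span {Pi ^ r}) (b := Ideal.span {Pi})
    have h2 : (↑(r + 1 + 1) : ℕ∞) ≤ emultiplicity L (Ideal.span {Pi ^ r} * Ideal.span {Pi}) :=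
      le_emultiplicity_of_pow_dvd h1
    have h3 : emultiplicity L (Ideal.span {Pi ^ r}) < (↑(r + 1) : ℕ∞) := by
      rw [emultiplicity_lt_iff_not_dvd, Ideal.dvd_span_singleton]
      exact ih
    have h4 : emultiplicity L (Ideal.span {Pi}) < (↑(2 : ℕ) : ℕ∞) := by
      rw [emultiplicity_lt_iff_not_dvd, Ideal.dvd_span_singleton]
      exact hPi2
    rw [hmul] at h2
    have h3' : emultiplicity L (Ideal.span {Pi ^ r}) ≤ (↑r : ℕ∞) := by
      have := ENat.lt_add_one_iff (n := (↑r : ℕ∞)) (m := emultiplicity L (Ideal.span {Pi ^ r}))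
        (by simp)
      exact this.1 (by simpa using h3)
    have h4' : emultiplicity L (Ideal.span {Pi}) ≤ (↑(1 : ℕ) : ℕ∞) := by
      have := ENat.lt_add_one_iff (n := (↑(1 : ℕ) : ℕ∞)) (m := emultiplicity L (Ideal.span {Pi}))
        (by simp)
      exact this.1 (by simpa [one_add_one_eq_two] using h4)
    have h5 : (↑(r + 1 + 1) : ℕ∞) ≤ (↑r : ℕ∞) + (↑(1 : ℕ) : ℕ∞) :=
      h2.trans (add_le_add h3' h4')
    have h6 : r + 1 + 1 ≤ r + 1 := by exact_mod_cast h5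
    omega

/-- **Local congruence**, with the exact valuation `r` of `β` given. -/
theorem local_congruence_of_mem (L : Ideal R) [hL : L.IsPrime] (hL0 : L ≠ ⊥)
    (Pi : R) (hPi : Pi ∈ L) (hPi2 : Pi ∉ L ^ 2)
    (τ : R ≃+* R) (hτ : ∀ a, τ a - a ∈ L) (c s : R) (hc : τ Pi = c * Pi) (hcs : c - s ∈ L)
    (β ε : R) (hε : τ β = ε * β) (r : ℕ) (hr1 : β ∈ L ^ r) (hr2 : β ∉ L ^ (r + 1)) :
    ε - s ^ r ∈ L := by
  have hPr : Pi ^ r ∈ L ^ r := Ideal.pow_mem_pow hPi r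
  have hPr2 : Pi ^ r ∉ L ^ (r + 1) := pow_notMem_pow_succ_of_uniformiser L hL0 hPi2 r
  obtain ⟨d, e, he, hde⟩ := Ideal.exists_mul_add_mem_pow_succ hL0 (Pi ^ r) β hPr hPr2 hr1
  -- `τ` preserves `L` and its powers
  have hτL : ∀ a ∈ L, τ a ∈ L := fun a ha => by
    have := L.add_mem (hτ a) ha
    simpa using this
  have hτLn : ∀ n : ℕ, ∀ a ∈ L ^ n, τ a ∈ L ^ n := by
    intro n a ha
    have hmap : (L ^ n).map (τ : R →+* R) ≤ L ^ n := by
      rw [Ideal.map_pow]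
      exact Ideal.pow_right_mono (Ideal.map_le_iff_le_comap.2 (fun x hx => hτL x hx)) n
    exact hmap (Ideal.mem_map_of_mem _ ha)
  have hτe : τ e ∈ L ^ (r + 1) := hτLn _ e he
  -- d ∉ L
  have hd : d ∉ L := by
    intro hd
    apply hr2
    rw [← hde]
    refine Ideal.add_mem _ ?_ he
    rw [pow_succ]
    exact Ideal.mul_mem_mul hPr hd
  -- the key identity
  have key : Pi ^ r * (ε * d - c ^ r * τ d) = τ e - ε * e := by
    have h1 : τ β = (c * Pi) ^ r * τ d + τ e := by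
      rw [← hde, map_add, map_mul, map_pow, hc]
    rw [hε, ← hde] at h1
    linear_combination h1
  have hmem : Pi ^ r * (ε * d - c ^ r * τ d) ∈ L ^ (r + 1) := by
    rw [key]
    exact Ideal.sub_mem _ hτe (Ideal.mul_mem_left _ _ he)
  have h2 : ε * d - c ^ r * τ d ∈ L := Ideal.mem_prime_of_mul_mem_pow hL0 hPr2 hmem
  -- replace `c` by `s` and `τ d` by `d`
  have hcr : c ^ r - s ^ r ∈ L := by
    have : c - s ∣ c ^ r - s ^ r := sub_dvd_pow_sub_pow c s r
    obtain ⟨t, ht⟩ := this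
    rw [ht]
    exact Ideal.mul_mem_right _ _ hcs
  have h3 : (ε - s ^ r) * d ∈ L := by
    have e1 : (ε - s ^ r) * d = (ε * d - c ^ r * τ d) + (c ^ r - s ^ r) * τ d
        + s ^ r * (τ d - d) := by ring
    rw [e1]
    exact Ideal.add_mem _ (Ideal.add_mem _ h2 (Ideal.mul_mem_right _ _ hcr))
      (Ideal.mul_mem_left _ _ (hτ d))
  exact (hL.mem_or_mem h3).resolve_right hd

/-- **Local congruence.** -/
theorem local_congruence (L : Ideal R) [hL : L.IsPrime] (hL0 : L ≠ ⊥)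
    (Pi : R) (hPi : Pi ∈ L) (hPi2 : Pi ∉ L ^ 2)
    (τ : R ≃+* R) (hτ : ∀ a, τ a - a ∈ L) (c s : R) (hc : τ Pi = c * Pi) (hcs : c - s ∈ L)
    (β ε : R) (hβ : β ≠ 0) (hε : τ β = ε * β) :
    ∃ r : ℕ, β ∈ L ^ r ∧ β ∉ L ^ (r + 1) ∧ ε - s ^ r ∈ L := by
  obtain ⟨r, hr1, hr2⟩ := exists_mem_pow_notMem_pow_succ_of_ne_zero L hL0 hβ
  exact ⟨r, hr1, hr2, local_congruence_of_mem L hL0 Pi hPi hPi2 τ hτ c s hc hcs β ε hε r hr1 hr2⟩

end LocalCongruence

end Fermat.Agent.H47
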