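/-
helper47, P-S14 / C3-c: `Fermat.Agent.H76.LocalCongruenceStatement`.
-/
import Fermat.Agent.H76.ThaineInterfaces
import Fermat.Agent.H47.ThaineLocal

set_option autoImplicit false

namespace Fermat.Agent.H47

/-- **C3-c**: the local congruence `ε ≡ s ^ r (mod Λ)`. -/
theorem localCongruenceStatement : Fermat.Agent.H76.LocalCongruenceStatement := by
  intro R _ _ L hL hL0 τ hτ Pi c s hPi hPi2 hc hcs β ε hε r hr1 hr2
  have := hL
  exact local_congruence_of_mem L hL0 Pi hPi hPi2 τ hτ c (s : R) hc hcs β ε hε r hr1 hr2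

end Fermat.Agent.H47
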