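/-
helper47, P-S14 / C3 (Thaine relation), piece B: if `τ` generates `Gal(F/K)` and `τ β = ε β`
with `ε` a unit of `𝓞 F`, then `N_{F/K} β = u * β ^ [F:K]` with `u` a unit of `𝓞 F`.
-/
import Mathlib

set_option autoImplicit false

open scoped NumberField

namespace Fermat.Agent.H47

section Norm

variable (K F : Type*) [Field K] [NumberField K] [Field F] [NumberField F] [Algebra K F]

/-- the action of `Gal(F/K)` on `𝓞 F`. -/
noncomputable def galO (a : F ≃ₐ[K] F) : 𝓞 F ≃+* 𝓞 F :=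
  NumberField.RingOfIntegers.mapRingEquiv a.toRingEquiv

@[simp] theorem coe_galO (a : F ≃ₐ[K] F) (x : 𝓞 F) :
    algebraMap (𝓞 F) F (galO K F a x) = a (algebraMap (𝓞 F) F x) := rfl

/-- every element of the cyclic group generated by `τ` multiplies `β` by a unit. -/
theorem exists_unit_smul_of_generator (τ : F ≃ₐ[K] F) (β : 𝓞 F) (ε : (𝓞 F)ˣ)
    (h : galO K F τ β = (ε : 𝓞 F) * β) (g : F ≃ₐ[K] F)
    (hg : g ∈ Subgroup.zpowers τ) :
    ∃ u : (𝓞 F)ˣ, galO K F g β = (u : 𝓞 F) * β := by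
  -- the set of such `g` is a subgroup containing `τ`
  have hmul : ∀ a b : F ≃ₐ[K] F, ∀ x : 𝓞 F, galO K F (a * b) x = galO K F a (galO K F b x) := by
    intro a b x
    apply NumberField.RingOfIntegers.coe_injective
    rfl
  have hone : ∀ x : 𝓞 F, galO K F 1 x = x := by
    intro x
    apply NumberField.RingOfIntegers.coe_injective
    rfl
  let H : Subgroup (F ≃ₐ[K] F) :=
    { carrier := {g | ∃ u : (𝓞 F)ˣ, galO K F g β = (u : 𝓞 F) * β}
      one_mem' := ⟨1, by rw [hone]; simp⟩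
      mul_mem' := by
        rintro a b ⟨u, hu⟩ ⟨v, hv⟩
        refine ⟨Units.map ((galO K F a : 𝓞 F ≃+* 𝓞 F) : 𝓞 F →* 𝓞 F) v * u, ?_⟩
        rw [hmul, hv, map_mul, hu]
        simp only [Units.val_mul, Units.coe_map, MonoidHom.coe_coe]
        ring
      inv_mem' := by
        rintro a ⟨u, hu⟩
        refine ⟨Units.map ((galO K F a⁻¹ : 𝓞 F ≃+* 𝓞 F) : 𝓞 F →* 𝓞 F) u⁻¹, ?_⟩
        have h1 : galO K F a⁻¹ (galO K F a β) = β := by
          rw [← hmul, inv_mul_cancel, hone]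
        have h2 : galO K F a⁻¹ (galO K F a β)
            = galO K F a⁻¹ (u : 𝓞 F) * galO K F a⁻¹ β := by
          rw [hu, map_mul]
        have h3 : galO K F a⁻¹ ((u⁻¹ : (𝓞 F)ˣ) : 𝓞 F) * galO K F a⁻¹ (u : 𝓞 F) = 1 := by
          rw [← map_mul]
          simp
        simp only [Units.coe_map, MonoidHom.coe_coe]
        calc galO K F a⁻¹ β
            = (galO K F a⁻¹ ((u⁻¹ : (𝓞 F)ˣ) : 𝓞 F) * galO K F a⁻¹ (u : 𝓞 F))
              * galO K F a⁻¹ β := by rw [h3, one_mul]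
          _ = galO K F a⁻¹ ((u⁻¹ : (𝓞 F)ˣ) : 𝓞 F) * (galO K F a⁻¹ (galO K F a β)) := by
              rw [h2]; ring
          _ = _ := by rw [h1] }
  have hτ : τ ∈ H := ⟨ε, h⟩
  have : Subgroup.zpowers τ ≤ H := (Subgroup.zpowers_le).2 hτ
  exact this hg

variable [IsGalois K F]

/-- **Norm = unit × power.** -/
theorem intNorm_eq_unit_mul_pow (τ : F ≃ₐ[K] F) (hτ : ∀ g : F ≃ₐ[K] F, g ∈ Subgroup.zpowers τ)
    (β : 𝓞 F) (ε : (𝓞 F)ˣ) (h : galO K F τ β = (ε : 𝓞 F) * β) :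
    ∃ u : (𝓞 F)ˣ, algebraMap (𝓞 K) (𝓞 F) (Algebra.intNorm (𝓞 K) (𝓞 F) β)
      = (u : 𝓞 F) * β ^ (Module.finrank K F) := by
  classical
  choose u hu using fun g : F ≃ₐ[K] F =>
    exists_unit_smul_of_generator K F τ β ε h g (hτ g)
  refine ⟨∏ g : F ≃ₐ[K] F, u g, ?_⟩
  apply NumberField.RingOfIntegers.coe_injective
  have h1 : algebraMap (𝓞 F) F (algebraMap (𝓞 K) (𝓞 F) (Algebra.intNorm (𝓞 K) (𝓞 F) β))
      = algebraMap K F (Algebra.norm K (algebraMap (𝓞 F) F β)) := by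
    have := Algebra.algebraMap_intNorm (A := 𝓞 K) (K := K) (L := F) (B := 𝓞 F) β
    rw [← this]
    rfl
  have hu' : ∀ g : F ≃ₐ[K] F, g (algebraMap (𝓞 F) F β)
      = algebraMap (𝓞 F) F (u g) * algebraMap (𝓞 F) F β := by
    intro g
    rw [← coe_galO, hu g, map_mul]
  change algebraMap (𝓞 F) F _ = algebraMap (𝓞 F) F _
  rw [h1, Algebra.norm_eq_prod_automorphisms]
  simp only [hu', Finset.prod_mul_distrib, Finset.prod_const, Finset.card_univ, map_mul,
    map_pow, Units.coe_prod, map_prod]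
  congr 1
  rw [← IsGalois.card_aut_eq_finrank K F, Nat.card_eq_fintype_card]

end Norm

end Fermat.Agent.H47
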