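/-
helper47, P-S14 / C3-d: `Fermat.Agent.H76.NormValuationStatement`.

If `τ` generates `Gal(F/K)` and `τ β = ε β`, then `N_{F/K} β = u β^n` (`n = [F:K]`, `u` a unit),
hence `e(Q|q) · v_q(N β) = n · v_Q(β)`.
-/
import Fermat.Agent.H76.ThaineInterfaces
import Fermat.Agent.H47.ThaineNorm

set_option autoImplicit false

open scoped NumberField

namespace Fermat.Agent.H47

section NormValuation

variable (K F : Type*) [Field K] [NumberField K] [Field F] [NumberField F] [Algebra K F]

/-- `galRestrict` agrees with `galO`. -/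
theorem galRestrict_eq_galO (a : F ≃ₐ[K] F) (x : 𝓞 F) :
    galRestrict (𝓞 K) K F (𝓞 F) a x = galO K F a x := by
  apply NumberField.RingOfIntegers.coe_injective
  have h := algebraMap_galRestrict_apply (A := 𝓞 K) (K := K) (L := F) (B := 𝓞 F) a x
  exact h

theorem galO_mul (a b : F ≃ₐ[K] F) (x : 𝓞 F) :
    galO K F (a * b) x = galO K F a (galO K F b x) := by
  apply NumberField.RingOfIntegers.coe_injective
  rfl

theorem galO_one (x : 𝓞 F) : galO K F 1 x = x := by
  apply NumberField.RingOfIntegers.coe_injective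
  rfl

/-- if `τ β = ε β` with `β ≠ 0` and `τ` of finite order, then `ε` is a unit. -/
theorem isUnit_of_galO_eq_mul (τ : F ≃ₐ[K] F) (β ε : 𝓞 F) (hβ : β ≠ 0)
    (h : galO K F τ β = ε * β) : IsUnit ε := by
  -- `τ ^ k β = e_k β` with `e_{k+1} = τ e_k * ε`
  have hpow : ∀ k : ℕ, ∃ e : 𝓞 F, galO K F (τ ^ (k + 1)) β = (e * ε) * β := by
    intro k
    induction k with
    | zero => exact ⟨1, by simpa using h⟩
    | succ k ih =>
      obtain ⟨e, he⟩ := ih
      refine ⟨galO K F τ (e * ε), ?_⟩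
      rw [pow_succ', galO_mul, he, map_mul, h]
      ring
  have hfin : IsOfFinOrder τ := isOfFinOrder_of_finite τ
  have hpos : 0 < orderOf τ := hfin.orderOf_pos
  obtain ⟨k, hk⟩ := Nat.exists_eq_succ_of_ne_zero hpos.ne'
  obtain ⟨e, he⟩ := hpow k
  rw [← Nat.succ_eq_add_one, ← hk, pow_orderOf_eq_one, galO_one] at he
  have h1 : e * ε = 1 := by
    have : (e * ε - 1) * β = 0 := by
      rw [sub_mul, one_mul, ← he, sub_self]
    rcases mul_eq_zero.1 this with h0 | h0
    · exact sub_eq_zero.1 h0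
    · exact absurd h0 hβ
  exact IsUnit.of_mul_eq_one e (by rw [mul_comm]; exact h1)

end NormValuation

/-- **C3-d**: the valuation of the norm. -/
theorem normValuationStatement : Fermat.Agent.H76.NormValuationStatement := by
  classical
  intro K F _ _ _ _ _ _ τ hτ β ε hε Q hQ hQ0 r hr1 hr2 m hm
  have := hQ
  have hβ : β ≠ 0 := by
    rintro rfl
    exact hr2 (Ideal.zero_mem _)
  rw [galRestrict_eq_galO] at hε
  obtain ⟨εu, rfl⟩ := isUnit_of_galO_eq_mul K F τ β ε hβ hε
  obtain ⟨u, hu⟩ := intNorm_eq_unit_mul_pow K F τ hτ β εu hε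
  set N := Algebra.intNorm (𝓞 K) (𝓞 F) β with hN
  set q : Ideal (𝓞 K) := Q.under (𝓞 K) with hq
  have hN0 : N ≠ 0 := by
    rw [hN, Ne, Algebra.intNorm_eq_zero]
    exact hβ
  have hq0 : q ≠ ⊥ := Ideal.under_ne_bot (𝓞 K) hQ0
  have hqprime : q.IsPrime := Ideal.IsPrime.under (𝓞 K) Q
  have hQirr : Irreducible Q := (Ideal.prime_of_isPrime hQ0 hQ).irreducible
  have hqirr : Irreducible q := (Ideal.prime_of_isPrime hq0 hqprime).irreducible
  -- multiplicity of `Q` in `span {β}`
  have hmβ : emultiplicity Q (Ideal.span {β}) = (r : ℕ∞) := by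
    rw [emultiplicity_eq_coe, Ideal.dvd_span_singleton, Ideal.dvd_span_singleton]
    exact ⟨hr1, hr2⟩
  -- multiplicity of `Q` in `span {algebraMap N}`
  have hmN : emultiplicity Q ((Ideal.span {N}).map (algebraMap (𝓞 K) (𝓞 F)))
      = ((Module.finrank K F * r : ℕ) : ℕ∞) := by
    rw [Ideal.map_span, Set.image_singleton, hu,
      Ideal.span_singleton_mul_left_unit u.isUnit, ← Ideal.span_singleton_pow,
      emultiplicity_pow (Ideal.prime_of_isPrime hQ0 hQ), hmβ]
    push_cast
    rfl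
  have hspan : Ideal.span {N} ≠ ⊥ := by
    simpa using hN0
  rw [Ideal.IsDedekindDomain.emultiplicity_map_eq_ramificationIdx'_mul hspan hqirr hQirr hQ0,
    Ideal.ramificationIdx'_eq_ramificationIdx q Q hq0, ← hm] at hmN
  have hfin : FiniteMultiplicity q (Ideal.span {N}) :=
    FiniteMultiplicity.of_prime_left (Ideal.prime_of_isPrime hq0 hqprime) hspan
  obtain ⟨k, hk⟩ : ∃ k : ℕ, emultiplicity q (Ideal.span {N}) = (k : ℕ∞) :=
    ⟨_, hfin.emultiplicity_eq_multiplicity⟩
  rw [hk] at hmN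
  have hepos : 0 < Q.ramificationIdx (𝓞 K) := Ideal.ramificationIdx_pos Q (𝓞 K)
  have hkm : k = m := by
    have : Q.ramificationIdx (𝓞 K) * k = Q.ramificationIdx (𝓞 K) * m := by
      exact_mod_cast hmN
    exact Nat.eq_of_mul_eq_mul_left hepos this
  subst hkm
  rw [emultiplicity_eq_coe, Ideal.dvd_span_singleton, Ideal.dvd_span_singleton] at hk
  exact hk

end Fermat.Agent.H47
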