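/-
helper47: the duplication map `x ↦ (x⁴ - 2a x² - 8b x + a²) / (4 (x³ + a x + b))` multiplies the
height of a rational function by `4` exactly (constant coefficients `a b` with `4a³ + 27b² ≠ 0`,
characteristic `≠ 2`).  Generic algebra for the height argument of the Hasse relation.
-/
import Fermat.Agent.H47.RatHeight

set_option autoImplicit false

namespace Fermat.Agent.H47

open Polynomial

section CoprimeHeight

variable {K : Type*} [Field K]

/-- two coprime representations of the same fraction have the same degrees. -/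
theorem natDegree_eq_of_coprime_of_mul_eq {p q p' q' : K[X]} (h : p * q' = p' * q)
    (hpq : IsCoprime p q) (hpq' : IsCoprime p' q') :
    p.natDegree = p'.natDegree ∧ q.natDegree = q'.natDegree := by
  have h1 : p ∣ p' := hpq.dvd_of_dvd_mul_right ⟨q', h.symm⟩
  have h2 : p' ∣ p := hpq'.dvd_of_dvd_mul_right ⟨q, h⟩
  have h3 : q ∣ q' := hpq.symm.dvd_of_dvd_mul_left ⟨p', by rw [h]; ring⟩
  have h4 : q' ∣ q := hpq'.symm.dvd_of_dvd_mul_left ⟨p, by rw [← h]; ring⟩
  exact ⟨Polynomial.natDegree_eq_of_degree_eq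
      (Polynomial.degree_eq_degree_of_associated (associated_of_dvd_dvd h1 h2)),
    Polynomial.natDegree_eq_of_degree_eq
      (Polynomial.degree_eq_degree_of_associated (associated_of_dvd_dvd h3 h4))⟩

/-- the height of a fraction in lowest terms. -/
theorem ratHeight_div_of_isCoprime {U V : K[X]} (hUV : IsCoprime U V) (hV : V ≠ 0) :
    ratHeight (algebraMap K[X] (RatFunc K) U / algebraMap K[X] (RatFunc K) V)
      = max U.natDegree V.natDegree := by
  set x := algebraMap K[X] (RatFunc K) U / algebraMap K[X] (RatFunc K) V with hx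
  have hV' : algebraMap K[X] (RatFunc K) V ≠ 0 := RatFunc.algebraMap_ne_zero hV
  have hd' : algebraMap K[X] (RatFunc K) x.denom ≠ 0 := RatFunc.algebraMap_ne_zero x.denom_ne_zero
  have key : x.num * V = U * x.denom := by
    have h1 : algebraMap K[X] (RatFunc K) x.num / algebraMap K[X] (RatFunc K) x.denom = x :=
      RatFunc.num_div_denom x
    have h2 : algebraMap K[X] (RatFunc K) (x.num * V) = algebraMap K[X] (RatFunc K) (U * x.denom) := by
      rw [map_mul, map_mul]
      have := h1.trans hx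
      field_simp at this
      linear_combination this
    exact IsFractionRing.injective K[X] (RatFunc K) h2
  obtain ⟨h1, h2⟩ := natDegree_eq_of_coprime_of_mul_eq key (RatFunc.isCoprime_num_denom x) hUV
  unfold ratHeight
  rw [h1, h2]

end CoprimeHeight

section Dup

variable {K : Type*} [Field K] (a b : K)

/-- numerator form of the duplication map. -/
noncomputable def dupNum (u v : K[X]) : K[X] :=
  u ^ 4 - C (2 * a) * u ^ 2 * v ^ 2 - C (8 * b) * u * v ^ 3 + C (a ^ 2) * v ^ 4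

/-- denominator form of the duplication map. -/
noncomputable def dupDen (u v : K[X]) : K[X] :=
  C 4 * v * (u ^ 3 + C a * u * v ^ 2 + C b * v ^ 3)

theorem dup_cert_v (u v : K[X]) :
    (C 12 * u ^ 2 * v + C (16 * a) * v ^ 3) * dupNum a b u v
      - (C 3 * u ^ 3 - C (5 * a) * u * v ^ 2 - C (27 * b) * v ^ 3) * dupDen a b u v
      = C (4 * (4 * a ^ 3 + 27 * b ^ 2)) * v ^ 7 := by
  unfold dupNum dupDen
  simp only [map_mul, map_add, map_pow, map_ofNat]
  ring

theorem dup_cert_u (u v : K[X]) :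
    (C (4 * (4 * a ^ 3 + 27 * b ^ 2)) * u ^ 3 - C (4 * a ^ 2 * b) * u ^ 2 * v
        + C (4 * a * (3 * a ^ 3 + 22 * b ^ 2)) * u * v ^ 2
        + C (12 * b * (a ^ 3 + 8 * b ^ 2)) * v ^ 3) * dupNum a b u v
      + (C (a ^ 2 * b) * u ^ 3 + C (a * (5 * a ^ 3 + 32 * b ^ 2)) * u ^ 2 * v
        + C (2 * b * (13 * a ^ 3 + 96 * b ^ 2)) * u * v ^ 2
        - C (3 * a ^ 2 * (a ^ 3 + 8 * b ^ 2)) * v ^ 3) * dupDen a b u v
      = C (4 * (4 * a ^ 3 + 27 * b ^ 2)) * u ^ 7 := by
  unfold dupNum dupDen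
  simp only [map_mul, map_add, map_pow, map_ofNat]
  ring

variable {a b}

private theorem nd_add {p q : K[X]} {n : ℕ} (hp : p.natDegree ≤ n) (hq : q.natDegree ≤ n) :
    (p + q).natDegree ≤ n :=
  natDegree_add_le_of_degree_le hp hq

private theorem nd_sub {p q : K[X]} {n : ℕ} (hp : p.natDegree ≤ n) (hq : q.natDegree ≤ n) :
    (p - q).natDegree ≤ n :=
  (natDegree_sub_le p q).trans (max_le hp hq)

private theorem nd_term (c : K) {u v : K[X]} {d : ℕ} (hu : u.natDegree ≤ d) (hv : v.natDegree ≤ d)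
    (i j n : ℕ) (hn : i + j = n) : (C c * u ^ i * v ^ j).natDegree ≤ n * d := by
  have h1 : (C c * u ^ i).natDegree ≤ i * d :=
    (natDegree_C_mul_le c (u ^ i)).trans (natDegree_pow_le_of_le i hu)
  have h2 := natDegree_mul_le_of_le h1 (natDegree_pow_le_of_le j hv)
  rw [← hn, add_mul]
  exact h2

theorem natDegree_dupNum_le {u v : K[X]} {d : ℕ} (hu : u.natDegree ≤ d) (hv : v.natDegree ≤ d) :
    (dupNum a b u v).natDegree ≤ 4 * d := by
  unfold dupNum
  refine nd_add (nd_sub (nd_sub ?_ ?_) ?_) ?_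
  · exact natDegree_pow_le_of_le 4 hu
  · exact nd_term (2 * a) hu hv 2 2 4 rfl
  · have := nd_term (8 * b) hu hv 1 3 4 rfl
    simpa using this
  · have := nd_term (a ^ 2) hu hv 0 4 4 rfl
    simpa using this

theorem natDegree_dupDen_le {u v : K[X]} {d : ℕ} (hu : u.natDegree ≤ d) (hv : v.natDegree ≤ d) :
    (dupDen a b u v).natDegree ≤ 4 * d := by
  unfold dupDen
  have h1 : (C (4 : K) * v).natDegree ≤ 1 * d := by
    have := nd_term (4 : K) hu hv 0 1 1 rfl
    simpa using this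
  have h2 : (u ^ 3 + C a * u * v ^ 2 + C b * v ^ 3).natDegree ≤ 3 * d := by
    refine nd_add (nd_add ?_ ?_) ?_
    · exact natDegree_pow_le_of_le 3 hu
    · have := nd_term a hu hv 1 2 3 rfl
      simpa using this
    · have := nd_term b hu hv 0 3 3 rfl
      simpa using this
  have := natDegree_mul_le_of_le h1 h2
  omega

/-- the cofactors of the two certificates have degree `≤ 3 d`. -/
private theorem nd_cof1 {u v : K[X]} {d : ℕ} (hu : u.natDegree ≤ d) (hv : v.natDegree ≤ d) :
    (C 12 * u ^ 2 * v + C (16 * a) * v ^ 3).natDegree ≤ 3 * d := by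
  refine nd_add ?_ ?_
  · have := nd_term (12 : K) hu hv 2 1 3 rfl
    simpa using this
  · have := nd_term (16 * a) hu hv 0 3 3 rfl
    simpa using this

private theorem nd_cof2 {u v : K[X]} {d : ℕ} (hu : u.natDegree ≤ d) (hv : v.natDegree ≤ d) :
    (C 3 * u ^ 3 - C (5 * a) * u * v ^ 2 - C (27 * b) * v ^ 3).natDegree ≤ 3 * d := by
  refine nd_sub (nd_sub ?_ ?_) ?_
  · have := nd_term (3 : K) hu hv 3 0 3 rfl
    simpa using this
  · have := nd_term (5 * a) hu hv 1 2 3 rfl
    simpa using this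
  · have := nd_term (27 * b) hu hv 0 3 3 rfl
    simpa using this

private theorem nd_cof3 {u v : K[X]} {d : ℕ} (hu : u.natDegree ≤ d) (hv : v.natDegree ≤ d) :
    (C (4 * (4 * a ^ 3 + 27 * b ^ 2)) * u ^ 3 - C (4 * a ^ 2 * b) * u ^ 2 * v
        + C (4 * a * (3 * a ^ 3 + 22 * b ^ 2)) * u * v ^ 2
        + C (12 * b * (a ^ 3 + 8 * b ^ 2)) * v ^ 3).natDegree ≤ 3 * d := by
  refine nd_add (nd_add (nd_sub ?_ ?_) ?_) ?_
  · have := nd_term (4 * (4 * a ^ 3 + 27 * b ^ 2)) hu hv 3 0 3 rfl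
    simpa using this
  · have := nd_term (4 * a ^ 2 * b) hu hv 2 1 3 rfl
    simpa using this
  · have := nd_term (4 * a * (3 * a ^ 3 + 22 * b ^ 2)) hu hv 1 2 3 rfl
    simpa using this
  · have := nd_term (12 * b * (a ^ 3 + 8 * b ^ 2)) hu hv 0 3 3 rfl
    simpa using this

private theorem nd_cof4 {u v : K[X]} {d : ℕ} (hu : u.natDegree ≤ d) (hv : v.natDegree ≤ d) :
    (C (a ^ 2 * b) * u ^ 3 + C (a * (5 * a ^ 3 + 32 * b ^ 2)) * u ^ 2 * v
        + C (2 * b * (13 * a ^ 3 + 96 * b ^ 2)) * u * v ^ 2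
        - C (3 * a ^ 2 * (a ^ 3 + 8 * b ^ 2)) * v ^ 3).natDegree ≤ 3 * d := by
  refine nd_sub (nd_add (nd_add ?_ ?_) ?_) ?_
  · have := nd_term (a ^ 2 * b) hu hv 3 0 3 rfl
    simpa using this
  · have := nd_term (a * (5 * a ^ 3 + 32 * b ^ 2)) hu hv 2 1 3 rfl
    simpa using this
  · have := nd_term (2 * b * (13 * a ^ 3 + 96 * b ^ 2)) hu hv 1 2 3 rfl
    simpa using this
  · have := nd_term (3 * a ^ 2 * (a ^ 3 + 8 * b ^ 2)) hu hv 0 3 3 rfl
    simpa using this

/-- **exact degree of the duplication forms.** -/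
theorem max_natDegree_dup (h2 : (2 : K) ≠ 0) (hΔ : 4 * a ^ 3 + 27 * b ^ 2 ≠ 0) (u v : K[X]) :
    max (dupNum a b u v).natDegree (dupDen a b u v).natDegree
      = 4 * max u.natDegree v.natDegree := by
  set d := max u.natDegree v.natDegree with hd
  have hu : u.natDegree ≤ d := le_max_left _ _
  have hv : v.natDegree ≤ d := le_max_right _ _
  set M := max (dupNum a b u v).natDegree (dupDen a b u v).natDegree with hM
  have hN : (dupNum a b u v).natDegree ≤ M := le_max_left _ _
  have hD : (dupDen a b u v).natDegree ≤ M := le_max_right _ _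
  apply le_antisymm
  · exact max_le (natDegree_dupNum_le hu hv) (natDegree_dupDen_le hu hv)
  · have hc : (4 * (4 * a ^ 3 + 27 * b ^ 2) : K) ≠ 0 := by
      have h4 : (4 : K) ≠ 0 := by
        have : (4 : K) = 2 * 2 := by norm_num
        rw [this]
        exact mul_ne_zero h2 h2
      exact mul_ne_zero h4 hΔ
    -- `7 deg v ≤ 3 d + M`
    have hv7 : 7 * v.natDegree ≤ 3 * d + M := by
      have h1 := congrArg natDegree (dup_cert_v a b u v)
      rw [natDegree_C_mul hc, natDegree_pow] at h1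
      rw [← h1]
      refine nd_sub ?_ ?_
      · exact natDegree_mul_le_of_le (nd_cof1 hu hv) hN
      · exact natDegree_mul_le_of_le (nd_cof2 hu hv) hD
    have hu7 : 7 * u.natDegree ≤ 3 * d + M := by
      have h1 := congrArg natDegree (dup_cert_u a b u v)
      rw [natDegree_C_mul hc, natDegree_pow] at h1
      rw [← h1]
      refine nd_add ?_ ?_
      · exact natDegree_mul_le_of_le (nd_cof3 hu hv) hN
      · exact natDegree_mul_le_of_le (nd_cof4 hu hv) hD
    have h7 : 7 * d ≤ 3 * d + M := by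
      rcases le_total u.natDegree v.natDegree with h | h
      · rw [hd, max_eq_right h]
        rw [hd, max_eq_right h] at hv7
        exact hv7
      · rw [hd, max_eq_left h]
        rw [hd, max_eq_left h] at hu7
        exact hu7
    omega

/-- **the duplication forms of a coprime pair are coprime.** -/
theorem isCoprime_dup (h2 : (2 : K) ≠ 0) (hΔ : 4 * a ^ 3 + 27 * b ^ 2 ≠ 0) {u v : K[X]}
    (huv : IsCoprime u v) : IsCoprime (dupNum a b u v) (dupDen a b u v) := by
  have hc : (4 * (4 * a ^ 3 + 27 * b ^ 2) : K) ≠ 0 := by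
    have h4 : (4 : K) ≠ 0 := by
      have : (4 : K) = 2 * 2 := by norm_num
      rw [this]
      exact mul_ne_zero h2 h2
    exact mul_ne_zero h4 hΔ
  set c := (4 * (4 * a ^ 3 + 27 * b ^ 2) : K) with hcdef
  have hcu : IsUnit (C c : K[X]) := Polynomial.isUnit_C.2 (IsUnit.mk0 c hc)
  -- `u ^ 7` and `v ^ 7` are coprime
  have h77 : IsCoprime (u ^ 7) (v ^ 7) := huv.pow
  obtain ⟨r, s, hrs⟩ := h77
  obtain ⟨ci, hci⟩ := hcu.exists_left_inv
  -- write `1 = r u^7 + s v^7` and substitute the certificates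
  refine ⟨ci * (r * (C (4 * (4 * a ^ 3 + 27 * b ^ 2)) * u ^ 3 - C (4 * a ^ 2 * b) * u ^ 2 * v
        + C (4 * a * (3 * a ^ 3 + 22 * b ^ 2)) * u * v ^ 2
        + C (12 * b * (a ^ 3 + 8 * b ^ 2)) * v ^ 3)
      + s * (C 12 * u ^ 2 * v + C (16 * a) * v ^ 3)),
    ci * (r * (C (a ^ 2 * b) * u ^ 3 + C (a * (5 * a ^ 3 + 32 * b ^ 2)) * u ^ 2 * v
        + C (2 * b * (13 * a ^ 3 + 96 * b ^ 2)) * u * v ^ 2
        - C (3 * a ^ 2 * (a ^ 3 + 8 * b ^ 2)) * v ^ 3)
      - s * (C 3 * u ^ 3 - C (5 * a) * u * v ^ 2 - C (27 * b) * v ^ 3)), ?_⟩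
  have e1 := dup_cert_u a b u v
  have e2 := dup_cert_v a b u v
  linear_combination (ci * r) * e1 + (ci * s) * e2 + (ci * C c) * hrs + hci

end Dup

section DupRat

variable {K : Type*} [Field K] {a b : K}

/-- **`h(2P) = 4 h(P)`** on the level of `x`-coordinates. -/
theorem ratHeight_dup (h2 : (2 : K) ≠ 0) (hΔ : 4 * a ^ 3 + 27 * b ^ 2 ≠ 0) (x : RatFunc K)
    (hx : x ^ 3 + RatFunc.C a * x + RatFunc.C b ≠ 0) :
    ratHeight ((x ^ 4 - RatFunc.C (2 * a) * x ^ 2 - RatFunc.C (8 * b) * x + RatFunc.C (a ^ 2))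
      / (4 * (x ^ 3 + RatFunc.C a * x + RatFunc.C b))) = 4 * ratHeight x := by
  set u := x.num with hu
  set v := x.denom with hv
  have hv0 : v ≠ 0 := x.denom_ne_zero
  have hv0' : algebraMap K[X] (RatFunc K) v ≠ 0 := RatFunc.algebraMap_ne_zero hv0
  have hxuv : x = algebraMap K[X] (RatFunc K) u / algebraMap K[X] (RatFunc K) v :=
    (RatFunc.num_div_denom x).symm
  have huv : IsCoprime u v := RatFunc.isCoprime_num_denom x
  have hcop := isCoprime_dup (a := a) (b := b) h2 hΔ huv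
  -- the two sides of the fraction
  have hN : x ^ 4 - RatFunc.C (2 * a) * x ^ 2 - RatFunc.C (8 * b) * x + RatFunc.C (a ^ 2)
      = algebraMap K[X] (RatFunc K) (dupNum a b u v) / (algebraMap K[X] (RatFunc K) v) ^ 4 := by
    rw [eq_div_iff (pow_ne_zero 4 hv0')]
    unfold dupNum
    simp only [map_add, map_sub, map_mul, map_pow, RatFunc.algebraMap_C]
    rw [hxuv]
    field_simp
  have hD : 4 * (x ^ 3 + RatFunc.C a * x + RatFunc.C b)
      = algebraMap K[X] (RatFunc K) (dupDen a b u v) / (algebraMap K[X] (RatFunc K) v) ^ 4 := by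
    rw [eq_div_iff (pow_ne_zero 4 hv0')]
    unfold dupDen
    simp only [map_add, map_mul, map_pow, RatFunc.algebraMap_C, map_ofNat]
    rw [hxuv]
    field_simp
  have hD0 : dupDen a b u v ≠ 0 := by
    intro h0
    rw [h0, map_zero, zero_div] at hD
    have h4 : (4 : RatFunc K) ≠ 0 := by
      have h4K : (4 : K) ≠ 0 := by
        have : (4 : K) = 2 * 2 := by norm_num
        rw [this]
        exact mul_ne_zero h2 h2
      have e4 : (4 : RatFunc K) = RatFunc.C (4 : K) :=
        (map_ofNat (RatFunc.C : K →+* RatFunc K) 4).symm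
      rw [e4]
      exact (map_ne_zero (RatFunc.C : K →+* RatFunc K)).2 h4K
    rcases mul_eq_zero.1 hD with h | h
    · exact h4 h
    · exact hx h
  rw [hN, hD, div_div_div_cancel_right₀ (pow_ne_zero 4 hv0'),
    ratHeight_div_of_isCoprime hcop hD0, max_natDegree_dup h2 hΔ]
  rfl

end DupRat

end Fermat.Agent.H47
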