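/-
helper47, P-S52 / WP-B: `Fermat.Agent.H74.CubicStatement` (B4 for the cubic):
`hdeg (ξ³ + a ξ + b) = 3 * hdeg ξ`, from multiplicativity of the height under substitution.
-/
import Fermat.Agent.H47.RatHeight
import Fermat.Agent.H74.TwistInterfaces

set_option autoImplicit false

namespace Fermat.Agent.H47

open Polynomial

/-- the height of a monic polynomial of degree `n`, viewed as a rational function. -/
theorem ratHeight_algebraMap_polynomial {K : Type*} [Field K] (g : K[X]) :
    ratHeight (algebraMap K[X] (RatFunc K) g) = g.natDegree := by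
  unfold ratHeight
  rw [RatFunc.num_algebraMap, RatFunc.denom_algebraMap]
  simp

/-- height of `g(ξ)` for a polynomial `g`. -/
theorem ratHeight_aeval {K : Type*} [Field K] (g : K[X]) (ξ : RatFunc K) :
    ratHeight (aeval ξ g) = g.natDegree * ratHeight ξ := by
  by_cases hξ : ∃ c, ξ = RatFunc.C c
  · obtain ⟨c, rfl⟩ := hξ
    have : aeval (RatFunc.C c) g = RatFunc.C (g.eval c) := by
      have h1 : (RatFunc.C c : RatFunc K) = algebraMap K (RatFunc K) c :=
        (RatFunc.algebraMap_eq_C (K := K)) ▸ rfl
      rw [h1, aeval_algebraMap_apply]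
      simp [RatFunc.algebraMap_eq_C]
    rw [this, ratHeight_C, ratHeight_C, mul_zero]
  · rw [← ratSubst_algebraMap ξ hξ g, ratHeight_ratSubst, ratHeight_algebraMap_polynomial]

/-- **B4 (cubic)**: `hdeg (ξ³ + a ξ + b) = 3 * hdeg ξ`. -/
theorem cubicStatement {k : Type*} [Field k] (a b : k) : Fermat.Agent.H74.CubicStatement a b := by
  intro ξ
  have h := ratHeight_aeval (X ^ 3 + C a * X + C b : k[X]) ξ
  have hdeg : (X ^ 3 + C a * X + C b : k[X]).natDegree = 3 := by
    compute_degree!
  rw [hdeg] at h
  have e : aeval ξ (X ^ 3 + C a * X + C b : k[X]) = ξ ^ 3 + RatFunc.C a * ξ + RatFunc.C b := by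
    simp [RatFunc.algebraMap_eq_C]
  rw [e] at h
  exact h

end Fermat.Agent.H47
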